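import Fermat.Agent.S14.U.Defs

/-!
# S14, block (U), package U-A: the Galois group and the infinite places of `ℚ(ζ_p)`
-/

set_option autoImplicit false

namespace Fermat.Agent.S14

open NumberField NumberField.Units

theorem exists_generator {K : Type*} [Field K] [NumberField K] {p : ℕ} [Fact p.Prime]
    [IsCyclotomicExtension {p} ℚ K] {ζ : 𝓞 K} (hζ : IsPrimitiveRoot ζ p) :
    ∃ (σ : K ≃ₐ[ℚ] K) (g : ℕ), (∀ τ : K ≃ₐ[ℚ] K, τ ∈ Subgroup.zpowers σ) ∧ sigO σ ζ = ζ ^ g ∧
      orderOf (g : ZMod p) = p - 1 := by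
  have hp : p.Prime := Fact.out
  let e := IsCyclotomicExtension.Rat.galEquivZMod p K
  obtain ⟨t, ht⟩ := IsCyclic.exists_generator (α := (ZMod p)ˣ)
  refine ⟨e.symm t, (t : ZMod p).val, fun τ => ?_, ?_, ?_⟩
  · obtain ⟨n, hn⟩ := Subgroup.mem_zpowers_iff.mp (ht (e τ))
    refine Subgroup.mem_zpowers_iff.mpr ⟨n, ?_⟩
    rw [← map_zpow, hn, MulEquiv.symm_apply_apply]
  · apply RingOfIntegers.ext
    have h1 : ((ζ : 𝓞 K) : K) ^ p = 1 := by
      have := hζ.pow_eq_one
      exact_mod_cast congrArg (fun x : 𝓞 K => (x : K)) this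
    have h2 := IsCyclotomicExtension.Rat.galEquivZMod_apply_of_pow_eq p K (e.symm t) h1
    rw [show IsCyclotomicExtension.Rat.galEquivZMod p K (e.symm t) = t from
      e.apply_symm_apply t] at h2
    show (e.symm t) ((ζ : 𝓞 K) : K) = ((ζ ^ (t : ZMod p).val : 𝓞 K) : K)
    rw [h2]
    simp
  · rw [ZMod.natCast_zmod_val, orderOf_units, orderOf_eq_card_of_forall_mem_zpowers ht,
      Nat.card_eq_fintype_card, ZMod.card_units]

theorem places_card {K : Type*} [Field K] [NumberField K] {p : ℕ} [Fact p.Prime]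
    (hp3 : 3 ≤ p) [IsCyclotomicExtension {p} ℚ K] :
    Fintype.card (InfinitePlace K) = (p - 1) / 2 := by
  have hp : p.Prime := Fact.out
  rw [InfinitePlace.card_eq_nrRealPlaces_add_nrComplexPlaces,
    IsCyclotomicExtension.Rat.nrRealPlaces_eq_zero K (n := p) (by omega),
    IsCyclotomicExtension.Rat.nrComplexPlaces_eq_totient_div_two p K, Nat.totient_prime hp,
    zero_add]

theorem places_orderOf {K : Type*} [Field K] [NumberField K] {p : ℕ} [Fact p.Prime]
    [IsCyclotomicExtension {p} ℚ K] (σ : K ≃ₐ[ℚ] K)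
    (hσ : ∀ τ : K ≃ₐ[ℚ] K, τ ∈ Subgroup.zpowers σ) : orderOf σ = p - 1 := by
  have hp : p.Prime := Fact.out
  rw [orderOf_eq_card_of_forall_mem_zpowers hσ,
    Nat.card_congr (IsCyclotomicExtension.Rat.galEquivZMod p K).toEquiv,
    Nat.card_eq_fintype_card, ZMod.card_units]

theorem places_bijective {K : Type*} [Field K] [NumberField K] {p : ℕ} [Fact p.Prime]
    (hp3 : 3 ≤ p) [IsCyclotomicExtension {p} ℚ K] (σ : K ≃ₐ[ℚ] K)
    (hσ : ∀ τ : K ≃ₐ[ℚ] K, τ ∈ Subgroup.zpowers σ) (w : InfinitePlace K) :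
    Function.Bijective (fun i : Fin ((p - 1) / 2) => (σ ^ (i : ℕ)) • w) := by
  have hgal : IsGalois ℚ K := IsCyclotomicExtension.isGalois {p} ℚ K
  rw [Fintype.bijective_iff_injective_and_card]
  refine ⟨?_, by rw [Fintype.card_fin, places_card hp3]⟩
  have key : ∀ i j : ℕ, i < j → j < (p - 1) / 2 → σ ^ i • w ≠ σ ^ j • w := by
    intro i j hij hj h
    have h1 : σ ^ (j - i) ∈ MulAction.stabilizer (K ≃ₐ[ℚ] K) w := by
      rw [MulAction.mem_stabilizer_iff]
      have : σ ^ j = σ ^ i * σ ^ (j - i) := by rw [← pow_add]; congr 1; omega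
      rw [this, mul_smul] at h
      exact (smul_left_cancel _ h).symm
    have h2 : (σ ^ (j - i)) ^ 2 = 1 := by
      have hc := InfinitePlace.card_stabilizer (k := ℚ) (K := K) (w := w)
      have h3 : ((⟨σ ^ (j - i), h1⟩ : MulAction.stabilizer (K ≃ₐ[ℚ] K) w)) ^
          Nat.card (MulAction.stabilizer (K ≃ₐ[ℚ] K) w) = 1 := pow_card_eq_one'
      have h4 : (σ ^ (j - i)) ^ Nat.card (MulAction.stabilizer (K ≃ₐ[ℚ] K) w) = 1 :=
        congrArg Subtype.val h3
      rw [hc] at h4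
      split_ifs at h4
      · rw [pow_one] at h4
        rw [h4, one_pow]
      · exact h4
    rw [← pow_mul] at h2
    have h5 := orderOf_dvd_of_pow_eq_one h2
    rw [places_orderOf (p := p) σ hσ] at h5
    have h6 := Nat.le_of_dvd (by omega) h5
    omega
  intro i j hij
  by_contra hne
  rcases lt_or_gt_of_ne (fun h => hne (Fin.ext h) : (i : ℕ) ≠ j) with h | h
  · exact key i j h j.2 hij
  · exact key j i h i.2 hij.symm

theorem prod_places_eq_one {K : Type*} [Field K] [NumberField K] {p : ℕ} [Fact p.Prime]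
    (hp3 : 3 ≤ p) [IsCyclotomicExtension {p} ℚ K] (u : (𝓞 K)ˣ) :
    ∏ w : InfinitePlace K, w (u : K) = 1 := by
  have h1 := InfinitePlace.prod_eq_abs_norm ((u : 𝓞 K) : K)
  have h2 : |(Algebra.norm ℚ) ((u : 𝓞 K) : K)| = 1 := Units.norm K u
  rw [h2, Rat.cast_one] at h1
  have hmult : ∀ w : InfinitePlace K, w.mult = 2 := by
    intro w
    have h0 := IsCyclotomicExtension.Rat.nrRealPlaces_eq_zero K (n := p) (by omega)
    have hw : ¬ w.IsReal := by
      intro hw
      have : IsEmpty {w : InfinitePlace K // w.IsReal} := by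
        classical
        rw [← Fintype.card_eq_zero_iff]
        rw [← h0]
      exact this.false ⟨w, hw⟩
    simp [InfinitePlace.mult, hw]
  simp only [hmult, Finset.prod_pow] at h1
  have h3 : 0 ≤ ∏ w : InfinitePlace K, w ((u : 𝓞 K) : K) :=
    Finset.prod_nonneg fun w _ => apply_nonneg w _
  nlinarith [sq_nonneg (∏ w : InfinitePlace K, w ((u : 𝓞 K) : K) - 1),
    sq_nonneg (∏ w : InfinitePlace K, w ((u : 𝓞 K) : K) + 1)]

end Fermat.Agent.S14
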