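import Fermat.Agent.S14.U.Oper
import Fermat.Agent.S14.U.Places

/-!
# S14, block (U), package U-D: a cyclic vector for `σ` on `E / torsion`, and the rank
-/

set_option autoImplicit false

namespace Fermat.Agent.S14

open NumberField NumberField.Units

section Aux

variable {K : Type*} [Field K] [NumberField K]

/-- `v ↦ log |v|_w` as a homomorphism. -/
noncomputable def cycLog (w : InfinitePlace K) : (𝓞 K)ˣ →* Multiplicative ℝ where
  toFun v := Multiplicative.ofAdd (Real.log (w ((v : 𝓞 K) : K)))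
  map_one' := by simp
  map_mul' a b := by
    have ha : w ((a : 𝓞 K) : K) ≠ 0 := by simp
    have hb : w ((b : 𝓞 K) : K) ≠ 0 := by simp
    rw [← ofAdd_add, ← Real.log_mul ha hb, ← map_mul]
    simp

omit [NumberField K] in
theorem cycLog_apply (w : InfinitePlace K) (v : (𝓞 K)ˣ) :
    Multiplicative.toAdd (cycLog w v) = Real.log (w ((v : 𝓞 K) : K)) := rfl

theorem cyc_umk_prod {ι : Type*} (s : Finset ι) (f : ι → (𝓞 K)ˣ) :
    umk (∏ i ∈ s, f i) = ∑ i ∈ s, umk (f i) := by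
  classical
  induction s using Finset.induction_on with
  | empty => simp [umk_one]
  | insert a s ha ih => rw [Finset.prod_insert ha, Finset.sum_insert ha, umk_mul, ih]

theorem cyc_place_apply (w : InfinitePlace K) (τ : K ≃ₐ[ℚ] K) (x : K) :
    w (τ x) = (τ⁻¹ • w) x := by
  rw [InfinitePlace.smul_apply]
  rfl

theorem cyc_aux (σ : K ≃ₐ[ℚ] K) (n : ℕ)
    (hbij : ∀ w : InfinitePlace K, Function.Bijective (fun i : Fin (n + 1) => (σ ^ (i : ℕ)) • w))
    (hprod : ∀ u : (𝓞 K)ˣ, ∏ w : InfinitePlace K, w ((u : 𝓞 K) : K) = 1) :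
    ∃ x₀ : UMod K, LinearIndependent ℤ (fun i : Fin n => (unitsT σ ^ (i : ℕ)) x₀) := by
  classical
  obtain ⟨w₀⟩ : Nonempty (InfinitePlace K) := inferInstance
  obtain ⟨u, hu⟩ := NumberField.Units.dirichletUnitTheorem.exists_unit K w₀
  set Lf : ℕ → ℕ → ℝ := fun i j =>
    Real.log ((σ ^ j • w₀) (((sigU (σ ^ i) u : (𝓞 K)ˣ) : 𝓞 K) : K)) with hLf
  have hneg : ∀ i j : ℕ, i < n + 1 → j < n + 1 → i ≠ j → Lf i j < 0 := by
    intro i j hi hj hij
    have h1 : (σ ^ j • w₀) (((sigU (σ ^ i) u : (𝓞 K)ˣ) : 𝓞 K) : K) =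
        ((σ ^ i)⁻¹ • σ ^ j • w₀) ((u : 𝓞 K) : K) := cyc_place_apply _ _ _
    simp only [hLf]
    rw [h1]
    apply hu
    intro h2
    rw [inv_smul_eq_iff] at h2
    have h3 := (hbij w₀).1 (a₁ := ⟨j, hj⟩) (a₂ := ⟨i, hi⟩) h2
    exact hij (congrArg Fin.val h3).symm
  have hsum : ∀ i : ℕ, ∑ j : Fin (n + 1), Lf i j = 0 := by
    intro i
    simp only [hLf]
    rw [← Real.log_prod (fun j _ => by
      rw [Ne, map_eq_zero]
      exact_mod_cast (sigU (σ ^ i) u).ne_zero)]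
    have h1 := (hbij w₀).prod_comp
      (fun w : InfinitePlace K => w (((sigU (σ ^ i) u : (𝓞 K)ˣ) : 𝓞 K) : K))
    rw [h1, hprod, Real.log_one]
  set A : Matrix (Fin n) (Fin n) ℝ := fun i j => Lf i j with hA
  have hdet : A.det ≠ 0 := by
    apply det_ne_zero_of_sum_row_lt_diag
    intro k
    have h1 := hsum k
    rw [Fin.sum_univ_castSucc, ← Finset.add_sum_erase Finset.univ _ (Finset.mem_univ k)] at h1
    simp only [Fin.val_castSucc, Fin.val_last] at h1
    have h2 : ∑ j ∈ Finset.univ.erase k, ‖A k j‖ = - ∑ j ∈ Finset.univ.erase k, Lf k j := by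
      rw [← Finset.sum_neg_distrib]
      refine Finset.sum_congr rfl fun j hj => ?_
      have hjk : (k : ℕ) ≠ j := fun h => (Finset.ne_of_mem_erase hj) (Fin.ext h.symm)
      have := hneg k j (by omega) (by omega) hjk
      rw [Real.norm_eq_abs, abs_of_neg this]
    have h3 : Lf k n < 0 := hneg k n (by omega) (by omega) (by omega)
    rw [h2]
    calc - ∑ j ∈ Finset.univ.erase k, Lf k j = Lf k k + Lf k n := by linarith
      _ < Lf k k := by linarith
      _ ≤ ‖A k k‖ := le_abs_self _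
  refine ⟨umk u, ?_⟩
  rw [Fintype.linearIndependent_iff]
  intro c hc
  have h1 : umk (∏ i : Fin n, sigU (σ ^ (i : ℕ)) u ^ c i) = 0 := by
    rw [cyc_umk_prod, ← hc]
    refine Finset.sum_congr rfl fun i _ => ?_
    rw [umk_zpow, unitsT_pow_umk]
  rw [umk_eq_zero_iff] at h1
  have h2 : Matrix.vecMul (fun i => (c i : ℝ)) A = 0 := by
    funext j
    have h3 := h1 (σ ^ (j : ℕ) • w₀)
    have h4 : Multiplicative.toAdd (cycLog (σ ^ (j : ℕ) • w₀)
        (∏ i : Fin n, sigU (σ ^ (i : ℕ)) u ^ c i)) = 0 := by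
      rw [cycLog_apply, h3, Real.log_one]
    rw [map_prod, toAdd_prod] at h4
    simp only [map_zpow, toAdd_zpow, cycLog_apply] at h4
    simp only [Matrix.vecMul, dotProduct, Pi.zero_apply]
    rw [← h4]
    refine Finset.sum_congr rfl fun i _ => ?_
    rw [zsmul_eq_mul]
  have h5 := Matrix.eq_zero_of_vecMul_eq_zero hdet h2
  intro i
  have h6 : ((c i : ℤ) : ℝ) = 0 := congrFun h5 i
  exact_mod_cast h6

end Aux

theorem exists_cyclic_vector {K : Type*} [Field K] [NumberField K] {p : ℕ} [Fact p.Prime]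
    (hp3 : 3 ≤ p) [IsCyclotomicExtension {p} ℚ K] (σ : K ≃ₐ[ℚ] K)
    (hσ : ∀ τ : K ≃ₐ[ℚ] K, τ ∈ Subgroup.zpowers σ) :
    ∃ x₀ : UMod K, LinearIndependent ℤ (fun i : Fin ((p - 1) / 2 - 1) => (unitsT σ ^ (i : ℕ)) x₀) := by
  obtain ⟨n, hn⟩ : ∃ n, (p - 1) / 2 = n + 1 := ⟨(p - 1) / 2 - 1, by omega⟩
  have hbij := places_bijective hp3 σ hσ
  rw [hn] at hbij ⊢
  exact cyc_aux σ n hbij (prod_places_eq_one hp3)

theorem finrank_UMod {K : Type*} [Field K] [NumberField K] {p : ℕ} [Fact p.Prime]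
    (hp3 : 3 ≤ p) [IsCyclotomicExtension {p} ℚ K] : Module.finrank ℤ (UMod K) = (p - 1) / 2 - 1 := by
  rw [finrank_UMod_eq_rank, Units.rank, places_card hp3]

end Fermat.Agent.S14
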