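import Fermat.Agent.S14.U.Defs

/-!
# S14, block (U), package U-3: `η₀` is of type `ω²`
-/

set_option autoImplicit false

namespace Fermat.Agent.S14

open NumberField

namespace EtaType

/-! ### power sums -/

theorem et_sum_zmod (p : ℕ) [Fact p.Prime] (k : ℕ) :
    ∑ x : ZMod p, x ^ k = ∑ b ∈ Finset.range p, ((b : ℕ) : ZMod p) ^ k := by
  refine Finset.sum_bij (fun x _ => x.val) (fun x _ => Finset.mem_range.mpr (ZMod.val_lt x))
    (fun x _ y _ h => ZMod.val_injective p h) (fun b hb => ?_) (fun x _ => ?_)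
  · exact ⟨(b : ZMod p), Finset.mem_univ _, ZMod.val_natCast_of_lt (Finset.mem_range.mp hb)⟩
  · rw [ZMod.natCast_zmod_val]

theorem et_dvd_sum_pow {p : ℕ} (hp : p.Prime) (hp5 : 5 ≤ p) :
    p ∣ ∑ b ∈ Finset.Ico 1 p, b ^ (p - 3) := by
  have : Fact p.Prime := ⟨hp⟩
  rw [← ZMod.natCast_eq_zero_iff]
  push_cast
  have h1 : ∑ x : ZMod p, x ^ (p - 3) = 0 :=
    FiniteField.sum_pow_lt_card_sub_one (ZMod p) _ (by rw [ZMod.card]; omega)
  rw [et_sum_zmod, Finset.range_eq_Ico, Finset.sum_eq_sum_Ico_succ_bot hp.pos] at h1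
  simpa [zero_pow (by omega : p - 3 ≠ 0)] using h1

/-! ### an abstract reindexing lemma -/

theorem et_reindex {H : Type*} [CommGroup H] (G : ℕ → H) (s : Finset ℕ) (π : ℕ → ℕ)
    (hπ : Set.BijOn π s s) (a : ℕ → ℕ) (N p : ℕ)
    (ha : ∀ i ∈ s, a i ≡ N * a (π i) [MOD p]) :
    ∃ u : H, ∏ i ∈ s, G (π i) ^ a i = (∏ i ∈ s, G i ^ a i) ^ N * u ^ p := by
  have he : ∀ i ∈ s, ∃ e : ℤ, (a i : ℤ) = N * a (π i) + p * e := by
    intro i hi
    have h := (Nat.modEq_iff_dvd.mp (ha i hi).symm)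
    obtain ⟨e, he⟩ := h
    exact ⟨e, by push_cast at he; linarith⟩
  choose! e he using he
  refine ⟨∏ i ∈ s, G (π i) ^ e i, ?_⟩
  have h1 : ∏ i ∈ s, G i ^ a i = ∏ i ∈ s, G (π i) ^ a (π i) :=
    (Finset.prod_nbij π (fun i hi => hπ.mapsTo hi) hπ.injOn hπ.surjOn (fun i _ => rfl)).symm
  rw [h1, ← Finset.prod_pow, ← Finset.prod_pow, ← Finset.prod_mul_distrib]
  refine Finset.prod_congr rfl fun i hi => ?_
  have h2 : (G (π i) ^ a (π i)) ^ N * (G (π i) ^ e i) ^ p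
      = G (π i) ^ ((N : ℤ) * a (π i) + p * e i) := by
    rw [zpow_add, ← zpow_natCast (G (π i)) (a (π i)), ← zpow_natCast _ N, ← zpow_natCast _ p,
      ← zpow_mul, ← zpow_mul, mul_comm (N : ℤ), mul_comm (p : ℤ)]
  rw [h2, ← he i hi, zpow_natCast]

/-! ### the cyclotomic units `geo ζ c` -/

section geo

variable {R : Type*} [CommRing R] [IsDomain R] {p : ℕ} {ζ : R}

theorem et_sub_one_mul_geo (ζ : R) (c : ℕ) : (ζ - 1) * geo ζ c = ζ ^ c - 1 :=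
  mul_geom_sum ζ c

theorem et_geo_mod (hζ : IsPrimitiveRoot ζ p) (hp : 1 < p) (c : ℕ) :
    geo ζ c = geo ζ (c % p) := by
  have h1 : ζ - 1 ≠ 0 := sub_ne_zero.mpr (hζ.ne_one hp)
  apply mul_left_cancel₀ h1
  rw [et_sub_one_mul_geo, et_sub_one_mul_geo, pow_eq_pow_mod c hζ.pow_eq_one]

theorem et_geo_mul (hζ : IsPrimitiveRoot ζ p) (hp : 1 < p) (n b : ℕ) :
    geo ζ n * geo (ζ ^ n) b = geo ζ (n * b) := by
  have h1 : ζ - 1 ≠ 0 := sub_ne_zero.mpr (hζ.ne_one hp)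
  apply mul_left_cancel₀ h1
  rw [← mul_assoc, et_sub_one_mul_geo, et_sub_one_mul_geo, et_sub_one_mul_geo, pow_mul]

theorem et_geo_one (ζ : R) : geo ζ 1 = 1 := by simp [geo]

theorem et_isUnit_geo (hζ : IsPrimitiveRoot ζ p) (hp : p.Prime) {b : ℕ} (hb : ¬ p ∣ b) :
    IsUnit (geo ζ b) := by
  have hcop : Nat.Coprime b p := ((Nat.Prime.coprime_iff_not_dvd hp).mpr hb).symm
  exact hζ.geom_sum_isUnit hp.two_le hcop

end geo

/-! ### arithmetic of the permutation `b ↦ n b % p` -/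

theorem et_bijOn {p : ℕ} (hp : p.Prime) {n : ℕ} (hn : n.Coprime p) :
    Set.BijOn (fun b => n * b % p) (Finset.Ico 1 p : Finset ℕ) (Finset.Ico 1 p : Finset ℕ) := by
  have hmaps : Set.MapsTo (fun b => n * b % p) (Finset.Ico 1 p : Finset ℕ)
      (Finset.Ico 1 p : Finset ℕ) := by
    intro b hb
    simp only [Finset.coe_Ico, Set.mem_Ico] at hb ⊢
    refine ⟨?_, Nat.mod_lt _ hp.pos⟩
    rw [Nat.one_le_iff_ne_zero]
    intro h
    have h1 : p ∣ n * b := Nat.dvd_of_mod_eq_zero h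
    rcases (Nat.Prime.dvd_mul hp).mp h1 with h2 | h2
    · exact (Nat.Prime.coprime_iff_not_dvd hp).mp hn.symm h2
    · exact absurd (Nat.le_of_dvd (by omega) h2) (by omega)
  refine ((Finset.finite_toSet _).injOn_iff_bijOn_of_mapsTo hmaps).mp ?_
  intro b hb b' hb' h
  simp only [Finset.coe_Ico, Set.mem_Ico] at hb hb'
  have h1 : n * b ≡ n * b' [MOD p] := h
  have h2 : b ≡ b' [MOD p] := Nat.ModEq.cancel_left_of_coprime (by rwa [Nat.coprime_comm] at hn) h1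
  exact Nat.ModEq.eq_of_lt_of_lt h2 hb.2 hb'.2

theorem et_modEq {p : ℕ} (hp : p.Prime) (hp5 : 5 ≤ p) {n : ℕ} (hn : n.Coprime p) (b : ℕ) :
    b ^ (p - 3) ≡ n ^ 2 * (n * b % p) ^ (p - 3) [MOD p] := by
  have h1 : (n * b % p) ^ (p - 3) ≡ (n * b) ^ (p - 3) [MOD p] := (Nat.mod_modEq _ _).pow _
  have h2 : n ^ (p - 1) ≡ 1 [MOD p] := by
    have := Nat.ModEq.pow_totient hn
    rwa [Nat.totient_prime hp] at this
  have h3 : n ^ 2 * (n * b) ^ (p - 3) = n ^ (p - 1) * b ^ (p - 3) := by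
    rw [mul_pow, ← mul_assoc, ← pow_add]
    congr 2
    omega
  calc b ^ (p - 3) = 1 * b ^ (p - 3) := (one_mul _).symm
    _ ≡ n ^ (p - 1) * b ^ (p - 3) [MOD p] := (h2.symm).mul_right _
    _ = n ^ 2 * (n * b) ^ (p - 3) := h3.symm
    _ ≡ n ^ 2 * (n * b % p) ^ (p - 3) [MOD p] := (h1.symm).mul_left _

end EtaType

open EtaType in
theorem sigO_eta0 {K : Type*} [Field K] [NumberField K] {p : ℕ} [Fact p.Prime] (hp5 : 5 ≤ p)
    [IsCyclotomicExtension {p} ℚ K] {ζ : 𝓞 K} (hζ : IsPrimitiveRoot ζ p)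
    (σ : K ≃ₐ[ℚ] K) (n : ℕ) (hσ : sigO σ ζ = ζ ^ n) :
    ∃ u : (𝓞 K)ˣ, sigO σ (eta0 p ζ) = eta0 p ζ ^ (n ^ 2) * (u : 𝓞 K) ^ p := by
  classical
  have hpp : p.Prime := Fact.out
  have hn : n.Coprime p := by
    have h1 : IsPrimitiveRoot (sigO σ ζ) p := hζ.map_of_injective (sigO σ).injective
    rw [hσ] at h1
    exact (hζ.pow_iff_coprime hpp.pos n).mp h1
  have hnp : ¬ p ∣ n := (Nat.Prime.coprime_iff_not_dvd hpp).mp hn.symm
  let Gu : ℕ → (𝓞 K)ˣ := fun c =>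
    if h : ¬ p ∣ c then (et_isUnit_geo hζ hpp h).unit else 1
  have hGu : ∀ c, ¬ p ∣ c → ((Gu c : (𝓞 K)ˣ) : 𝓞 K) = geo ζ c := by
    intro c hc
    simp only [Gu, dif_pos hc, IsUnit.unit_spec]
  have hIco : ∀ b ∈ Finset.Ico 1 p, ¬ p ∣ b := by
    intro b hb h
    rw [Finset.mem_Ico] at hb
    exact absurd (Nat.le_of_dvd (by omega) h) (by omega)
  have hbij := et_bijOn hpp hn
  -- the action on a single unit
  have hone : ∀ b ∈ Finset.Ico 1 p,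
      sigO σ (geo ζ b) = ((Gu (n * b % p) * (Gu n)⁻¹ : (𝓞 K)ˣ) : 𝓞 K) := by
    intro b hb
    have hπ : ¬ p ∣ n * b % p := hIco _ (hbij.mapsTo hb)
    rw [Units.val_mul, eq_comm, Units.mul_inv_eq_iff_eq_mul, hGu _ hπ, hGu _ hnp,
      ← et_geo_mod hζ hpp.one_lt, ← et_geo_mul hζ hpp.one_lt, mul_comm]
    congr 1
    simp only [geo, map_sum, map_pow, hσ]
  -- `eta0` as a unit
  have heta : eta0 p ζ = ((∏ b ∈ Finset.Ico 1 p, Gu b ^ (b ^ (p - 3)) : (𝓞 K)ˣ) : 𝓞 K) := by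
    rw [Units.coe_prod, eta0]
    refine Finset.prod_congr rfl fun b hb => ?_
    rw [Units.val_pow_eq_pow_val, hGu b (hIco b hb)]
  have hsig : sigO σ (eta0 p ζ) = ((∏ b ∈ Finset.Ico 1 p,
      (Gu (n * b % p) * (Gu n)⁻¹) ^ (b ^ (p - 3)) : (𝓞 K)ˣ) : 𝓞 K) := by
    rw [Units.coe_prod, eta0, map_prod]
    refine Finset.prod_congr rfl fun b hb => ?_
    rw [Units.val_pow_eq_pow_val, map_pow, hone b hb]
  obtain ⟨u1, hu1⟩ := et_reindex Gu (Finset.Ico 1 p) (fun b => n * b % p) hbij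
    (fun b => b ^ (p - 3)) (n ^ 2) p (fun b _ => et_modEq hpp hp5 hn b)
  obtain ⟨t, ht⟩ := et_dvd_sum_pow hpp hp5
  refine ⟨u1 * ((Gu n)⁻¹) ^ t, ?_⟩
  rw [hsig, heta, ← Units.val_pow_eq_pow_val, ← Units.val_pow_eq_pow_val, ← Units.val_mul]
  congr 1
  simp only [mul_pow, Finset.prod_mul_distrib, Finset.prod_pow_eq_pow_sum]
  rw [hu1, ht, pow_mul, mul_assoc, ← pow_mul, ← pow_mul, mul_comm p t]

end Fermat.Agent.S14
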