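import Mathlib

/-!
# S14, block (U), package U-E: pure linear algebra over `ℤ` and `𝔽_p`

Eigenspaces mod `p` of a "cyclotomic" operator are at most one dimensional.
-/

set_option autoImplicit false

namespace Fermat.Agent.S14

open Polynomial Module
open scoped TensorProduct

theorem charpoly_eq_of_cyclic {M : Type*} [AddCommGroup M] [Module.Free ℤ M] [Module.Finite ℤ M]
    (T : M →ₗ[ℤ] M) (Φ : ℤ[X]) (hΦ : Φ.Monic) (hdeg : Φ.natDegree = finrank ℤ M)
    (hT : aeval T Φ = 0) (x₀ : M)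
    (hcyc : LinearIndependent ℤ (fun i : Fin (finrank ℤ M) => (T ^ (i : ℕ)) x₀)) :
    T.charpoly = Φ := by
  by_contra hne
  have hD0 : T.charpoly - Φ ≠ 0 := sub_ne_zero.mpr hne
  have hmon := T.charpoly_monic
  have hnd := T.charpoly_natDegree
  have hdeg' : T.charpoly.degree = Φ.degree := by
    rw [degree_eq_natDegree hmon.ne_zero, degree_eq_natDegree hΦ.ne_zero, hnd, hdeg]
  have hlt : (T.charpoly - Φ).degree < T.charpoly.degree :=
    degree_sub_lt_left hdeg' hmon.ne_zero (by rw [hmon.leadingCoeff, hΦ.leadingCoeff])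
  have hnlt : (T.charpoly - Φ).natDegree < finrank ℤ M := by
    rw [degree_eq_natDegree hmon.ne_zero, hnd] at hlt
    exact (natDegree_lt_iff_degree_lt hD0).mpr hlt
  have haev : aeval T (T.charpoly - Φ) = 0 := by
    rw [map_sub, LinearMap.aeval_self_charpoly, hT, sub_zero]
  rw [aeval_eq_sum_range' hnlt] at haev
  have h1 := LinearMap.congr_fun haev x₀
  simp only [LinearMap.sum_apply, LinearMap.smul_apply, LinearMap.zero_apply] at h1
  rw [Finset.sum_range] at h1
  have h2 := Fintype.linearIndependent_iff.mp hcyc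
    (fun i : Fin (finrank ℤ M) => (T.charpoly - Φ).coeff (i : ℕ)) h1
  apply hD0
  ext i
  by_cases hi : i < finrank ℤ M
  · simpa using h2 ⟨i, hi⟩
  · rw [coeff_zero]
    exact coeff_eq_zero_of_natDegree_lt (lt_of_lt_of_le hnlt (not_lt.mp hi))

theorem linAlg_natDegree_geom_sum_X {R : Type*} [CommRing R] [Nontrivial R] (m : ℕ) :
    (∑ i ∈ Finset.range m, (X : R[X]) ^ i).natDegree = m - 1 := by
  cases m with
  | zero => simp
  | succ k =>
    rw [Finset.sum_range_succ, Nat.add_sub_cancel]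
    have h1 : (∑ i ∈ Finset.range k, (X : R[X]) ^ i).degree < ((X : R[X]) ^ k).degree := by
      rw [degree_X_pow]
      refine lt_of_le_of_lt (degree_sum_le _ _) ?_
      refine (Finset.sup_lt_iff (WithBot.bot_lt_coe k)).mpr ?_
      intro i hi
      rw [degree_X_pow]
      exact WithBot.coe_lt_coe.mpr (Finset.mem_range.mp hi)
    rw [natDegree_add_eq_right_of_degree_lt h1, natDegree_X_pow]

/-- dictionary: `1 ⊗ z = 0` in `ZMod p ⊗ M` iff `z ∈ p M`. -/
theorem linAlg_tmul_eq_zero {M : Type*} [AddCommGroup M] [Module.Free ℤ M]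
    (p : ℕ) (z : M) (h : (1 : ZMod p) ⊗ₜ[ℤ] z = 0) : ∃ z' : M, z = (p : ℤ) • z' := by
  let b := Module.Free.chooseBasis ℤ M
  have h1 : ∀ i, (p : ℤ) ∣ b.repr z i := by
    intro i
    have h2 := congrArg (fun v => (Algebra.TensorProduct.basis (ZMod p) b).repr v i) h
    simp only [Algebra.TensorProduct.basis_repr_tmul, one_smul, Finsupp.mapRange_apply,
      map_zero, Finsupp.coe_zero, Pi.zero_apply] at h2
    rw [eq_intCast] at h2
    exact (ZMod.intCast_zmod_eq_zero_iff_dvd _ _).mp h2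
  choose q hq using h1
  refine ⟨b.repr.symm ((b.repr z).mapRange (fun a => a / (p : ℤ)) (by simp)), ?_⟩
  apply b.repr.injective
  ext i
  rw [map_smul, LinearEquiv.apply_symm_apply, Finsupp.smul_apply, Finsupp.mapRange_apply,
    smul_eq_mul]
  by_cases hp : (p : ℤ) = 0
  · rw [hq i, hp]; simp
  · rw [hq i, Int.mul_ediv_cancel_left _ hp]

/-- `1 ⊗ x` is an eigenvector of the base change. -/
theorem linAlg_mem_eigenspace {M : Type*} [AddCommGroup M]
    (T : M →ₗ[ℤ] M) (p : ℕ) (c : ℤ) (x : M) (hx : ∃ z, T x = c • x + (p : ℤ) • z) :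
    (1 : ZMod p) ⊗ₜ[ℤ] x ∈ Module.End.eigenspace (T.baseChange (ZMod p)) (c : ZMod p) := by
  obtain ⟨z, hz⟩ := hx
  rw [Module.End.mem_eigenspace_iff, LinearMap.baseChange_tmul, hz, TensorProduct.tmul_add,
    TensorProduct.tmul_smul, TensorProduct.tmul_smul]
  simp only [TensorProduct.smul_tmul']
  have h1 : ((p : ℤ) • (1 : ZMod p)) = 0 := by simp
  have h2 : (c • (1 : ZMod p)) = (c : ZMod p) • (1 : ZMod p) := by simp
  rw [h1, TensorProduct.zero_tmul, add_zero, h2]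

theorem eigen_unique {M : Type*} [AddCommGroup M] [Module.Free ℤ M] [Module.Finite ℤ M]
    (T : M →ₗ[ℤ] M) (m : ℕ) (hm : finrank ℤ M = m - 1) (hm1 : 1 ≤ m)
    (hT : ∑ i ∈ Finset.range m, T ^ i = 0) (x₀ : M)
    (hcyc : LinearIndependent ℤ (fun i : Fin (m - 1) => (T ^ (i : ℕ)) x₀))
    (p : ℕ) [Fact p.Prime] (hpm : ¬ p ∣ m) (c : ℤ)
    (x y : M) (hx : ∃ z, T x = c • x + (p : ℤ) • z) (hy : ∃ z, T y = c • y + (p : ℤ) • z)
    (hx0 : ¬ ∃ z, x = (p : ℤ) • z) : ∃ (k : ℕ) (z : M), y = k • x + (p : ℤ) • z := by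
  -- the characteristic polynomial
  have hchar : T.charpoly = ∑ i ∈ Finset.range m, (X : ℤ[X]) ^ i := by
    rw [← hm] at hcyc
    refine charpoly_eq_of_cyclic T _ (monic_geom_sum_X (by omega)) ?_ ?_ x₀ hcyc
    · rw [linAlg_natDegree_geom_sum_X, hm]
    · rw [map_sum]
      simpa using hT
  -- base change
  have hchar' : (T.baseChange (ZMod p)).charpoly = ∑ i ∈ Finset.range m, (X : (ZMod p)[X]) ^ i := by
    rw [LinearMap.charpoly_baseChange, hchar, Polynomial.map_sum]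
    simp
  have hsep : (∑ i ∈ Finset.range m, (X : (ZMod p)[X]) ^ i).Separable := by
    have h1 : ((X : (ZMod p)[X]) ^ m - 1).Separable := by
      rw [X_pow_sub_one_separable_iff]
      intro h0
      exact hpm ((ZMod.natCast_eq_zero_iff m p).mp h0)
    rw [← geom_sum_mul] at h1
    exact h1.of_mul_left
  have hfin : finrank (ZMod p) (Module.End.eigenspace (T.baseChange (ZMod p)) (c : ZMod p)) ≤ 1 := by
    refine (LinearMap.finrank_eigenspace_le _ _).trans ?_
    rw [hchar']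
    exact rootMultiplicity_le_one_of_separable hsep _
  obtain ⟨v, hv⟩ := finrank_le_one_iff.mp hfin
  obtain ⟨a, ha⟩ := hv ⟨_, linAlg_mem_eigenspace T p c x hx⟩
  obtain ⟨b, hb⟩ := hv ⟨_, linAlg_mem_eigenspace T p c y hy⟩
  have ha' : a • (v : ZMod p ⊗[ℤ] M) = (1 : ZMod p) ⊗ₜ[ℤ] x := congrArg Subtype.val ha
  have hb' : b • (v : ZMod p ⊗[ℤ] M) = (1 : ZMod p) ⊗ₜ[ℤ] y := congrArg Subtype.val hb
  have ha0 : a ≠ 0 := by
    intro h0
    rw [h0, zero_smul] at ha'
    exact hx0 (linAlg_tmul_eq_zero p x ha'.symm)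
  have hyx : (1 : ZMod p) ⊗ₜ[ℤ] y = (b * a⁻¹) • ((1 : ZMod p) ⊗ₜ[ℤ] x) := by
    rw [← ha', ← hb', smul_smul, mul_assoc, inv_mul_cancel₀ ha0, mul_one]
  refine ⟨(b * a⁻¹).val, ?_⟩
  have hz : (1 : ZMod p) ⊗ₜ[ℤ] (y - (b * a⁻¹).val • x) = 0 := by
    rw [TensorProduct.tmul_sub, hyx, TensorProduct.tmul_smul, sub_eq_zero]
    simp only [TensorProduct.smul_tmul']
    congr 1
    simp
  obtain ⟨z, hz'⟩ := linAlg_tmul_eq_zero p _ hz
  exact ⟨z, by rw [← hz']; abel⟩

end Fermat.Agent.S14
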