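import Fermat.Agent.S14.U.Oper
import Fermat.Agent.S14.U.Places

/-!
# S14, block (U), package U-C: the norm relation on `E / torsion`
-/

set_option autoImplicit false

namespace Fermat.Agent.S14

open NumberField NumberField.Units

theorem umk_prod_range {K : Type*} [Field K] [NumberField K] (n : ℕ) (f : ℕ → (𝓞 K)ˣ) :
    umk (∏ i ∈ Finset.range n, f i) = ∑ i ∈ Finset.range n, umk (f i) := by
  induction n with
  | zero => simp [umk_one]
  | succ n ih => rw [Finset.prod_range_succ, Finset.sum_range_succ, umk_mul, ih]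

theorem sum_unitsT_pow {K : Type*} [Field K] [NumberField K] {p : ℕ} [Fact p.Prime]
    (hp3 : 3 ≤ p) [IsCyclotomicExtension {p} ℚ K] (σ : K ≃ₐ[ℚ] K)
    (hσ : ∀ τ : K ≃ₐ[ℚ] K, τ ∈ Subgroup.zpowers σ) :
    ∑ i ∈ Finset.range ((p - 1) / 2), unitsT σ ^ i = 0 := by
  refine LinearMap.ext fun x => ?_
  obtain ⟨u, rfl⟩ := umk_surjective x
  rw [LinearMap.sum_apply, LinearMap.zero_apply]
  simp only [unitsT_pow_umk]
  rw [← umk_prod_range, umk_eq_zero_iff]
  intro w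
  have hσ' : ∀ τ : K ≃ₐ[ℚ] K, τ ∈ Subgroup.zpowers σ⁻¹ := by
    intro τ
    rw [Subgroup.zpowers_inv]
    exact hσ τ
  have hbij := places_bijective hp3 σ⁻¹ hσ' w
  have h1 : algebraMap (𝓞 K) K ((∏ i ∈ Finset.range ((p - 1) / 2), sigU (σ ^ i) u : (𝓞 K)ˣ) : 𝓞 K)
      = ∏ i ∈ Finset.range ((p - 1) / 2), (σ ^ i) (algebraMap (𝓞 K) K (u : 𝓞 K)) := by
    rw [Units.coe_prod, map_prod]
    rfl
  rw [h1, map_prod, Finset.prod_range, ← prod_places_eq_one hp3 u]
  refine Fintype.prod_bijective _ hbij _ _ fun i => ?_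
  rw [InfinitePlace.smul_apply, inv_pow]
  rfl
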