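import Fermat.Agent.S14.U.Local
import Fermat.Agent.S14.U.EtaType
import Fermat.Agent.S14.U.SumZero
import Fermat.Agent.S14.U.Cyclic
import Fermat.Agent.S14.U.LinAlg

/-!
# S14, block (U): `eta_not_pow` and `unit_isPow`
-/

set_option autoImplicit false

namespace Fermat.Agent.S14

open NumberField NumberField.Units Polynomial Module
open Fermat.Agent.Lib.Kummer

section

variable {K : Type*} [Field K] [NumberField K] {p : ℕ} [Fact p.Prime]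
  [IsCyclotomicExtension {p} ℚ K] {ζ : 𝓞 K}

/-- The abstract `Setup` for an arbitrary primitive root of unity of `𝓞 K`. -/
theorem setupU (hp3 : 3 ≤ p) (hζ : IsPrimitiveRoot ζ p) : Setup (𝓞 K) p ζ := by
  have hζK : IsPrimitiveRoot (ζ : K) p := hζ.map_of_injective RingOfIntegers.coe_injective
  have h := setup_cyclotomic p hp3 K hζK
  have h' : hζK.toInteger = ζ := by ext; rfl
  rwa [h'] at h

/-- `eta0` is not (torsion) times a `p`-th power. -/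
theorem eta0_ne_zeta_pow_mul_pow (hp5 : 5 ≤ p) (hζ : IsPrimitiveRoot ζ p) (j : ℕ) (v : (𝓞 K)ˣ) :
    eta0 p ζ * ζ ^ j * (v : 𝓞 K) ^ p ≠ 1 := by
  intro h
  have S := setupU (by omega) hζ
  have := (dvd_of_eta0_pow_mul S hp5 1 j (v : 𝓞 K) (S.not_lam_dvd_unit v) 1
    (by rw [pow_one, h]; simp)).1
  have hp := S.prime_p.one_lt
  exact absurd (Nat.le_of_dvd one_pos this) (by omega)

theorem eta_not_pow (hp5 : 5 ≤ p) (hζ : IsPrimitiveRoot ζ p) :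
    ¬ ∃ x : K, x ^ p = ((eta p ζ : 𝓞 K) : K) := by
  rintro ⟨x, hx⟩
  have S := setupU (by omega) hζ
  obtain ⟨s, hs⟩ := dvd_sum_pow S.prime_p hp5
  have hp0 : 0 < p := S.prime_p.pos
  have h1 : ((1 - ζ : 𝓞 K) : K) ≠ 0 := by
    intro h
    have h' : (1 - ζ : 𝓞 K) = 0 := RingOfIntegers.coe_injective (by simpa using h)
    exact S.lam_ne_zero (by linear_combination -h')
  -- `y ^ p = eta0`
  set y : K := x / ((1 - ζ : 𝓞 K) : K) ^ s with hy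
  have hyp : y ^ p = ((eta0 p ζ : 𝓞 K) : K) := by
    rw [hy, div_pow, hx, eta_eq, hs, div_eq_iff (pow_ne_zero _ (pow_ne_zero _ h1))]
    push_cast
    ring
  have hyint : IsIntegral ℤ y := by
    refine IsIntegral.of_pow hp0 ?_
    rw [hyp]
    exact RingOfIntegers.isIntegral_coe _
  set v : 𝓞 K := ⟨y, hyint⟩ with hv
  have hvp : v ^ p = eta0 p ζ := RingOfIntegers.coe_injective (by
    rw [map_pow]; exact hyp)
  have hvu : IsUnit v := by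
    have : IsUnit (v ^ p) := by rw [hvp]; exact isUnit_eta0 S
    exact (isUnit_pow_iff hp0.ne').1 this
  obtain ⟨V, hV⟩ := hvu
  refine eta0_ne_zeta_pow_mul_pow hp5 hζ 0 V⁻¹ ?_
  rw [← hvp, ← hV, pow_zero, mul_one, ← mul_pow, Units.mul_inv, one_pow]

/-- Roots of unity of `ℚ(ζ_p)` are `ζ^j` up to `p`-th powers. -/
theorem torsion_eq_zeta_pow_mul_pow (hp3 : 3 ≤ p) (hζ : IsPrimitiveRoot ζ p) {t : (𝓞 K)ˣ}
    (ht : t ∈ torsion K) : ∃ (j : ℕ) (s : (𝓞 K)ˣ), (t : 𝓞 K) = ζ ^ j * (s : 𝓞 K) ^ p := by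
  have S := setupU hp3 hζ
  have hζK : IsPrimitiveRoot (ζ : K) p := hζ.map_of_injective RingOfIntegers.coe_injective
  rw [torsion, CommGroup.mem_torsion] at ht
  have ht' : IsOfFinOrder (((t : 𝓞 K) : K)) := by
    have h1 : IsOfFinOrder (t : 𝓞 K) := (Units.coeHom (𝓞 K)).isOfFinOrder ht
    exact (algebraMap (𝓞 K) K : 𝓞 K →* K).isOfFinOrder h1
  obtain ⟨r, -, hr⟩ := hζK.exists_pow_or_neg_mul_pow_of_isOfFinOrder S.odd_p ht'
  rcases hr with hr | hr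
  · refine ⟨r, 1, RingOfIntegers.coe_injective ?_⟩
    simpa using hr
  · refine ⟨r, -1, RingOfIntegers.coe_injective ?_⟩
    simpa [S.odd_p.neg_one_pow] using hr

theorem unit_isPow (hp5 : 5 ≤ p) (hζ : IsPrimitiveRoot ζ p) (ε : (𝓞 K)ˣ)
    (htype : ∀ (σ : K ≃ₐ[ℚ] K) (n : ℕ), sigO σ ζ = ζ ^ n →
      ∃ u : (𝓞 K)ˣ, sigO σ (ε : 𝓞 K) = (ε : 𝓞 K) ^ (n ^ 2) * (u : 𝓞 K) ^ p)
    (hloc : ∃ n : ℤ, (ε : 𝓞 K) - (n : 𝓞 K) ∈ Ideal.span {1 - ζ} ^ 3) :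
    ∃ u : (𝓞 K)ˣ, ε = u ^ p := by
  have S := setupU (by omega) hζ
  have hp0 : 0 < p := S.prime_p.pos
  obtain ⟨σ, g, hσ, hσζ, -⟩ := exists_generator hζ
  obtain ⟨x₀, hx₀⟩ := exists_cyclic_vector (p := p) (by omega) σ hσ
  have hrank := finrank_UMod (K := K) (p := p) (by omega)
  have hsum := sum_unitsT_pow (p := p) (by omega) σ hσ
  obtain ⟨E0, hE0⟩ := isUnit_eta0 S
  obtain ⟨u1, hu1⟩ := sigO_eta0 hp5 hζ σ g hσζ
  obtain ⟨u2, hu2⟩ := htype σ g hσζ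
  have key : ∀ (e u : (𝓞 K)ˣ), sigO σ (e : 𝓞 K) = (e : 𝓞 K) ^ (g ^ 2) * (u : 𝓞 K) ^ p →
      ∃ z, unitsT σ (umk e) = ((g ^ 2 : ℕ) : ℤ) • umk e + (p : ℤ) • z := by
    intro e u h
    refine ⟨umk u, ?_⟩
    have h' : sigU σ e = e ^ (g ^ 2) * u ^ p := Units.ext (by simpa using h)
    rw [unitsT_umk, h', umk_mul, umk_pow, umk_pow, natCast_zsmul, natCast_zsmul]
  have hx := key E0 u1 (by rw [hE0]; exact hu1)
  have hy := key ε u2 hu2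
  -- from a relation in `UMod` to a relation between units
  have back : ∀ (e : (𝓞 K)ˣ) (k : ℕ) (z : UMod K), umk e = k • umk E0 + (p : ℤ) • z →
      ∃ (j : ℕ) (v : (𝓞 K)ˣ), (e : 𝓞 K) = eta0 p ζ ^ k * ζ ^ j * (v : 𝓞 K) ^ p := by
    intro e k z h
    obtain ⟨v, rfl⟩ := umk_surjective z
    have h0 : umk (e * (E0 ^ k * v ^ p)⁻¹) = 0 := by
      rw [umk_mul, umk_inv, umk_mul, umk_pow, umk_pow, h, natCast_zsmul]
      abel
    rw [umk_eq_zero_iff_mem] at h0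
    obtain ⟨j, s, hs⟩ := torsion_eq_zeta_pow_mul_pow (by omega) hζ h0
    refine ⟨j, s * v, ?_⟩
    have h1 : (e : 𝓞 K) = ((e * (E0 ^ k * v ^ p)⁻¹ : (𝓞 K)ˣ) : 𝓞 K) * ((E0 ^ k * v ^ p : (𝓞 K)ˣ) : 𝓞 K) := by
      rw [← Units.val_mul, inv_mul_cancel_right]
    rw [h1, hs]
    push_cast
    rw [hE0]
    ring
  have hx0 : ¬ ∃ z, umk E0 = (p : ℤ) • z := by
    rintro ⟨z, hz⟩
    obtain ⟨j, v, hv⟩ := back E0 0 z (by rw [hz]; simp)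
    refine eta0_ne_zeta_pow_mul_pow hp5 hζ ((p - 1) * j) v⁻¹ ?_
    rw [← hE0, hv, pow_zero, one_mul]
    have h1 : ζ ^ j * ζ ^ ((p - 1) * j) = 1 := by
      rw [← pow_add, show j + (p - 1) * j = p * j by
        obtain ⟨q, rfl⟩ : ∃ q, p = q + 1 := ⟨p - 1, by omega⟩
        simp only [Nat.add_sub_cancel]; ring, pow_mul, S.zeta_pow, one_pow]
    have h2 : (v : 𝓞 K) ^ p * ((v⁻¹ : (𝓞 K)ˣ) : 𝓞 K) ^ p = 1 := by
      rw [← mul_pow, Units.mul_inv, one_pow]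
    calc ζ ^ j * (v : 𝓞 K) ^ p * ζ ^ ((p - 1) * j) * ((v⁻¹ : (𝓞 K)ˣ) : 𝓞 K) ^ p
        = (ζ ^ j * ζ ^ ((p - 1) * j)) * ((v : 𝓞 K) ^ p * ((v⁻¹ : (𝓞 K)ˣ) : 𝓞 K) ^ p) := by ring
      _ = 1 := by rw [h1, h2, one_mul]
  have hpm : ¬ p ∣ (p - 1) / 2 := fun h => by
    have := Nat.le_of_dvd (by omega) h
    omega
  obtain ⟨k, z, hkz⟩ := eigen_unique (unitsT σ) ((p - 1) / 2) hrank (by omega) hsum x₀ hx₀ p hpm
    ((g ^ 2 : ℕ) : ℤ) (umk E0) (umk ε) hx hy hx0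
  obtain ⟨j, v, hv⟩ := back ε k z hkz
  obtain ⟨n, hn⟩ := hloc
  have hdvd : (ζ - 1) ^ 3 ∣ eta0 p ζ ^ k * ζ ^ j * (v : 𝓞 K) ^ p - n := by
    rw [← hv]
    rw [Ideal.span_singleton_pow, Ideal.mem_span_singleton] at hn
    have : (ζ - 1) ^ 3 = - (1 - ζ) ^ 3 := by ring
    rw [this, neg_dvd]
    exact hn
  obtain ⟨⟨k', rfl⟩, ⟨j', rfl⟩⟩ := dvd_of_eta0_pow_mul S hp5 k j (v : 𝓞 K) (S.not_lam_dvd_unit v) n hdvd
  obtain ⟨Z, hZ⟩ := S.isUnit_zeta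
  refine ⟨E0 ^ k' * Z ^ j' * v, Units.ext ?_⟩
  rw [hv]
  push_cast
  rw [hE0, hZ]
  ring

end

end Fermat.Agent.S14
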