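import Fermat.Agent.S14.Defs
import Fermat.Agent.Lib.Kummer.KummerLemma
import Fermat.Agent.Lib.Kummer.SetupCyclo

/-!
# S14, block (U): definitions
-/

set_option autoImplicit false

namespace Fermat.Agent.S14

open NumberField NumberField.Units

/-- The cyclotomic unit `1 + ζ + ⋯ + ζ^(b-1)`. -/
def geo {R : Type*} [CommRing R] (ζ : R) (b : ℕ) : R := ∑ i ∈ Finset.range b, ζ ^ i

/-- The unit part of `eta`: `η₀ = ∏_{b=1}^{p-1} (1 + ζ + ⋯ + ζ^(b-1))^(b^(p-3))`. -/
def eta0 (p : ℕ) {R : Type*} [CommRing R] (ζ : R) : R :=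
  ∏ b ∈ Finset.Ico 1 p, geo ζ b ^ (b ^ (p - 3))

section

variable {K : Type*} [Field K] [NumberField K]

/-- The action of a field automorphism on the units of `𝓞 K`. -/
noncomputable def sigU (σ : K ≃ₐ[ℚ] K) : (𝓞 K)ˣ →* (𝓞 K)ˣ :=
  Units.map ((sigO σ : 𝓞 K ≃+* 𝓞 K) : 𝓞 K →* 𝓞 K)

@[simp] theorem coe_sigU (σ : K ≃ₐ[ℚ] K) (u : (𝓞 K)ˣ) :
    ((sigU σ u : (𝓞 K)ˣ) : 𝓞 K) = sigO σ (u : 𝓞 K) := rfl

/-- The lattice `E / torsion`, written additively (a type synonym, with its own instances: with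
all of Mathlib imported the instance `Module ℤ (Additive ((𝓞 K)ˣ ⧸ torsion K))` is not found). -/
def UMod (K : Type*) [Field K] [NumberField K] : Type _ :=
  Additive ((𝓞 K)ˣ ⧸ torsion K)

noncomputable instance : AddCommGroup (UMod K) :=
  inferInstanceAs (AddCommGroup (Additive ((𝓞 K)ˣ ⧸ torsion K)))

instance : Module.Free ℤ (UMod K) :=
  NumberField.Units.instFreeIntAdditiveQuotientUnitsRingOfIntegersSubgroupTorsion K

instance : Module.Finite ℤ (UMod K) :=
  NumberField.Units.instFiniteIntAdditiveQuotientUnitsRingOfIntegersSubgroupTorsion K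

theorem finrank_UMod_eq_rank : Module.finrank ℤ (UMod K) = rank K := finrank_modTorsion K

/-- The class of a unit in `E / torsion`, as a monoid hom. -/
noncomputable def umkHom : Additive (𝓞 K)ˣ →+ UMod K :=
  MonoidHom.toAdditive (QuotientGroup.mk' (torsion K))

/-- The class of a unit in `E / torsion`. -/
noncomputable def umk (u : (𝓞 K)ˣ) : UMod K := umkHom (Additive.ofMul u)

theorem umk_one : umk (1 : (𝓞 K)ˣ) = 0 := rfl

theorem umk_mul (u v : (𝓞 K)ˣ) : umk (u * v) = umk u + umk v := rfl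

theorem umk_inv (u : (𝓞 K)ˣ) : umk u⁻¹ = - umk u := rfl

theorem umk_pow (u : (𝓞 K)ˣ) (n : ℕ) : umk (u ^ n) = n • umk u :=
  map_nsmul umkHom n (Additive.ofMul u)

theorem umk_zpow (u : (𝓞 K)ˣ) (n : ℤ) : umk (u ^ n) = n • umk u :=
  map_zsmul umkHom n (Additive.ofMul u)

theorem umk_surjective : Function.Surjective (umk : (𝓞 K)ˣ → UMod K) :=
  QuotientGroup.mk_surjective

theorem umk_eq_zero_iff_mem (u : (𝓞 K)ˣ) : umk u = 0 ↔ u ∈ torsion K :=
  QuotientGroup.eq_one_iff u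

end

end Fermat.Agent.S14
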