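import Fermat.Agent.S14.U.LogDer

/-!
# S14, block (U), package U-2 : local rigidity of `eta0`
-/

set_option autoImplicit false

namespace Fermat.Agent.S14

open Polynomial
open Fermat.Agent.Lib.Kummer

theorem ULocal_LD_zeta {R : Type*} [CommRing R] [IsDomain R] {p : ℕ} {ζ : R}
    (S : Setup R p ζ) : LD p ζ ζ (ζ ^ (p - 1)) := by
  refine ⟨X, by simp, ?_⟩
  have h : ζ ^ (p - 1) * ζ = 1 := by
    rw [← pow_succ, Nat.sub_add_cancel S.prime_p.one_le, S.prim.pow_eq_one]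
  rw [h]
  simp

theorem ULocal_not_dvd_zeta_pow {R : Type*} [CommRing R] [IsDomain R] {p : ℕ} {ζ : R}
    (S : Setup R p ζ) (j : ℕ) : ¬ (ζ - 1) ∣ ζ ^ j := by
  intro h
  have hu : IsUnit (ζ ^ j) := (S.prim.isUnit S.prime_p.ne_zero).pow j
  exact S.prime_lam.not_isUnit (isUnit_of_dvd_unit h hu)

theorem dvd_of_eta0_pow_mul {R : Type*} [CommRing R] [IsDomain R] {p : ℕ} {ζ : R}
    (S : Setup R p ζ) (hp5 : 5 ≤ p) (k j : ℕ) (v : R) (hv : ¬ (ζ - 1) ∣ v) (n : ℤ)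
    (h : (ζ - 1) ^ 3 ∣ eta0 p ζ ^ k * ζ ^ j * v ^ p - n) : p ∣ k ∧ p ∣ j := by
  have hp := S.prime_p
  obtain ⟨W, hW, h12⟩ := exists_LD_eta0 S hp5
  set u : R := eta0 p ζ ^ k * ζ ^ j * v ^ p with hu
  have hLD : LD p ζ u ((k : R) * W + (j : R) * ζ ^ (p - 1) + 0) :=
    ((hW.pow k).mul ((ULocal_LD_zeta S).pow j)).mul (S.LD_pow_p v)
  rw [add_zero] at hLD
  obtain ⟨f₁, hf₁, hf₁d⟩ := hLD
  obtain ⟨x, hx⟩ := h
  obtain ⟨H, hH⟩ := S.exists_poly x
  have hf₂ : aeval ζ (C n + (X - 1) ^ 3 * H : ℤ[X]) = u := by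
    have : u = n + (ζ - 1) ^ 3 * x := by rw [← hx]; ring
    rw [this]
    simp [hH]
  have hf₂d : (ζ - 1) ^ 2 ∣ aeval ζ (derivative (C n + (X - 1) ^ 3 * H : ℤ[X])) := by
    refine ⟨3 * x + (ζ - 1) * aeval ζ (derivative H), ?_⟩
    simp only [derivative_C, zero_add, derivative_mul, derivative_pow,
      derivative_X, derivative_one, sub_zero, mul_one, map_add, map_mul,
      map_pow, map_sub, aeval_X, map_one, hH, aeval_C]
    simp
    ring
  have hle : (ζ - 1) ^ 2 ∣ (ζ - 1) ^ (p - 2) := pow_dvd_pow _ (by omega)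
  have h1 := hle.trans (S.dvd_aeval_derivative_sub (hf₁.trans hf₂.symm))
  have h2 := hle.trans hf₁d
  have hwu : (ζ - 1) ^ 2 ∣ ((k : R) * W + (j : R) * ζ ^ (p - 1)) * u := by
    have : ((k : R) * W + (j : R) * ζ ^ (p - 1)) * u =
        (aeval ζ (derivative f₁) - aeval ζ (derivative (C n + (X - 1) ^ 3 * H : ℤ[X])))
        + aeval ζ (derivative (C n + (X - 1) ^ 3 * H : ℤ[X]))
        - (aeval ζ (derivative f₁) - ((k : R) * W + (j : R) * ζ ^ (p - 1)) * u) := by ring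
    rw [this]
    exact dvd_sub (dvd_add h1 hf₂d) h2
  have hnu : ¬ (ζ - 1) ∣ u := by
    intro hd
    rcases S.prime_lam.dvd_or_dvd hd with hd | hd
    · rcases S.prime_lam.dvd_or_dvd hd with hd | hd
      · exact S.prime_lam.not_isUnit (isUnit_of_dvd_unit hd ((isUnit_eta0 S).pow k))
      · exact ULocal_not_dvd_zeta_pow S j hd
    · exact hv (S.prime_lam.dvd_of_dvd_pow hd)
  have hw : (ζ - 1) ^ 2 ∣ (k : R) * W + (j : R) * ζ ^ (p - 1) :=
    S.prime_lam.pow_dvd_of_dvd_mul_right 2 hnu hwu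
  have hkey : (ζ - 1) ^ 2 ∣ 12 * (j : R) * ζ ^ (p - 1) - (k : R) * (ζ - 1) := by
    have : 12 * (j : R) * ζ ^ (p - 1) - (k : R) * (ζ - 1) =
        12 * ((k : R) * W + (j : R) * ζ ^ (p - 1)) - (k : R) * (12 * W + (ζ - 1)) := by ring
    rw [this]
    exact dvd_sub (Dvd.dvd.mul_left hw _) (Dvd.dvd.mul_left h12 _)
  have hlam : (ζ - 1) ∣ (ζ - 1) ^ 2 := dvd_pow_self _ (by norm_num)
  -- `p ∣ j`
  have hj : p ∣ j := by
    have h3 : (ζ - 1) ∣ 12 * (j : R) * ζ ^ (p - 1) := by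
      have := dvd_add (hlam.trans hkey) (Dvd.intro_left (k : R) rfl : (ζ - 1) ∣ (k : R) * (ζ - 1))
      simpa using this
    have h4 : (ζ - 1) ∣ 12 * (j : R) :=
      (S.prime_lam.dvd_or_dvd h3).resolve_right (ULocal_not_dvd_zeta_pow S _)
    have h5 : (p : ℤ) ∣ (12 * j : ℤ) := by
      rw [← S.lam_dvd_int]
      push_cast
      exact h4
    have h6 : p ∣ 12 * j := by exact_mod_cast h5
    rcases (Nat.Prime.dvd_mul hp).mp h6 with h7 | h7
    · exfalso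
      have hle12 := Nat.le_of_dvd (by norm_num) h7
      have h23 : p ∣ 2 ^ 2 * 3 := by simpa using h7
      rcases (Nat.Prime.dvd_mul hp).mp h23 with h | h
      · have := Nat.le_of_dvd (by norm_num) (hp.dvd_of_dvd_pow h)
        omega
      · have := Nat.le_of_dvd (by norm_num) h
        omega
    · exact h7
  refine ⟨?_, hj⟩
  have hp2 : (ζ - 1) ^ 2 ∣ (p : R) := (pow_dvd_pow _ (by omega)).trans S.assoc.dvd
  have hj2 : (ζ - 1) ^ 2 ∣ (j : R) := by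
    obtain ⟨j', rfl⟩ := hj
    push_cast
    exact Dvd.dvd.mul_right hp2 _
  have h8 : (ζ - 1) ^ 2 ∣ (k : R) * (ζ - 1) := by
    have : (k : R) * (ζ - 1) = 12 * (j : R) * ζ ^ (p - 1)
        - (12 * (j : R) * ζ ^ (p - 1) - (k : R) * (ζ - 1)) := by ring
    rw [this]
    exact dvd_sub (Dvd.dvd.mul_right (Dvd.dvd.mul_left hj2 _) _) hkey
  have h9 : (ζ - 1) ∣ (k : R) := by
    rw [pow_two, mul_comm (k : R)] at h8
    exact (mul_dvd_mul_iff_left S.prime_lam.ne_zero).mp h8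
  have h10 : (p : ℤ) ∣ (k : ℤ) := by
    rw [← S.lam_dvd_int]
    push_cast
    exact h9
  exact_mod_cast h10

theorem eta_eq {R : Type*} [CommRing R] (p : ℕ) (ζ : R) :
    eta p ζ = (1 - ζ) ^ (∑ b ∈ Finset.Ico 1 p, b ^ (p - 3)) * eta0 p ζ := by
  unfold eta eta0 geo
  rw [← Finset.prod_pow_eq_pow_sum, ← Finset.prod_mul_distrib]
  refine Finset.prod_congr rfl fun b _ => ?_
  rw [← mul_pow, mul_neg_geom_sum]

theorem dvd_sum_pow {p : ℕ} (hp : p.Prime) (hp5 : 5 ≤ p) :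
    p ∣ ∑ b ∈ Finset.Ico 1 p, b ^ (p - 3) := by
  have : Fact p.Prime := ⟨hp⟩
  have h1 : ∑ x : ZMod p, x ^ (p - 3) = 0 :=
    FiniteField.sum_pow_lt_card_sub_one (ZMod p) (p - 3) (by rw [ZMod.card]; omega)
  have h2 : ∑ b ∈ Finset.range p, ((b : ℕ) : ZMod p) ^ (p - 3) = ∑ x : ZMod p, x ^ (p - 3) := by
    refine Finset.sum_nbij' (fun b => (b : ZMod p)) ZMod.val ?_ ?_ ?_ ?_ ?_
    · intro a _; exact Finset.mem_univ _
    · intro a _; exact Finset.mem_range.mpr (ZMod.val_lt a)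
    · intro a ha; exact ZMod.val_cast_of_lt (Finset.mem_range.mp ha)
    · intro a _; exact ZMod.natCast_zmod_val a
    · intro a _; rfl
  rw [Finset.range_eq_Ico, Finset.sum_eq_sum_Ico_succ_bot hp.pos, h1] at h2
  have h3 : ((0 : ℕ) : ZMod p) ^ (p - 3) = 0 := by
    rw [Nat.cast_zero, zero_pow (by omega)]
  rw [h3, zero_add] at h2
  rw [← ZMod.natCast_eq_zero_iff]
  push_cast
  exact h2

end Fermat.Agent.S14
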