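import Fermat.Agent.S14.U.Defs

/-!
# S14, block (U), package U-1 : log-derivative of the cyclotomic unit `eta0` mod `(ζ-1)^2`
-/

set_option autoImplicit false

namespace Fermat.Agent.S14

open Polynomial
open Fermat.Agent.Lib.Kummer

/-! ### power sums modulo `p` -/

theorem logDer_sum_zmod {p : ℕ} [NeZero p] (f : ZMod p → ZMod p) :
    ∑ b ∈ Finset.range p, f (b : ZMod p) = ∑ x : ZMod p, f x := by
  refine Finset.sum_nbij' (fun b => (b : ZMod p)) ZMod.val ?_ ?_ ?_ ?_ ?_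
  · intro b _; exact Finset.mem_univ _
  · intro x _; exact Finset.mem_range.2 (ZMod.val_lt x)
  · intro b hb; exact ZMod.val_cast_of_lt (Finset.mem_range.1 hb)
  · intro x _; exact ZMod.natCast_zmod_val x
  · intro b _; rfl

theorem logDer_dvd_sum_pow {p : ℕ} (hp : p.Prime) {k : ℕ} (hk0 : 0 < k) (hk : k < p - 1) :
    p ∣ ∑ b ∈ Finset.Ico 1 p, b ^ k := by
  have : Fact p.Prime := ⟨hp⟩
  rw [← ZMod.natCast_eq_zero_iff]
  push_cast
  have h1 : ∑ b ∈ Finset.range p, ((b : ZMod p)) ^ k = 0 := by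
    rw [logDer_sum_zmod (fun x => x ^ k)]
    apply FiniteField.sum_pow_lt_card_sub_one
    rwa [ZMod.card]
  rw [Finset.range_eq_Ico, Finset.sum_eq_sum_Ico_succ_bot hp.pos] at h1
  simpa [hk0.ne'] using h1

theorem logDer_dvd_sum_pow_pred {p : ℕ} (hp : p.Prime) :
    p ∣ (∑ b ∈ Finset.Ico 1 p, b ^ (p - 1)) + 1 := by
  have : Fact p.Prime := ⟨hp⟩
  rw [← ZMod.natCast_eq_zero_iff]
  push_cast
  have h1 : ∀ b ∈ Finset.Ico 1 p, ((b : ZMod p)) ^ (p - 1) = 1 := by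
    intro b hb
    rw [Finset.mem_Ico] at hb
    apply ZMod.pow_card_sub_one_eq_one
    rw [Ne, ZMod.natCast_eq_zero_iff]
    exact Nat.not_dvd_of_pos_of_lt hb.1 hb.2
  rw [Finset.sum_congr rfl h1]
  simp only [Finset.sum_const, Nat.card_Ico, nsmul_eq_mul, mul_one]
  rw [Nat.cast_sub hp.one_le]
  simp

/-! ### units -/

theorem isUnit_geo {R : Type*} [CommRing R] [IsDomain R] {p : ℕ} {ζ : R} (S : Setup R p ζ)
    {b : ℕ} (hb : b ∈ Finset.Ico 1 p) : IsUnit (geo ζ b) := by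
  rw [Finset.mem_Ico] at hb
  have hcop : Nat.Coprime b p :=
    ((Nat.Prime.coprime_iff_not_dvd S.prime_p).2 (Nat.not_dvd_of_pos_of_lt hb.1 hb.2)).symm
  obtain ⟨c, -, hc⟩ := Nat.exists_mul_mod_eq_one_of_coprime hcop S.prime_p.one_lt
  have h1 : ζ ^ (b * c) = ζ := by
    conv_lhs => rw [← Nat.div_add_mod (b * c) p, hc, pow_add, pow_mul, S.zeta_pow, one_pow,
      one_mul, pow_one]
  have h2 : geo ζ b * (ζ - 1) = ζ ^ b - 1 := geom_sum_mul ζ b
  have h3 : geo (ζ ^ b) c * (ζ ^ b - 1) = (ζ ^ b) ^ c - 1 := geom_sum_mul (ζ ^ b) c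
  have h4 : geo ζ b * geo (ζ ^ b) c = 1 := by
    apply mul_right_cancel₀ S.lam_ne_zero
    rw [← pow_mul, h1] at h3
    linear_combination geo (ζ ^ b) c * h2 + h3
  exact IsUnit.of_mul_eq_one _ h4

theorem isUnit_eta0 {R : Type*} [CommRing R] [IsDomain R] {p : ℕ} {ζ : R} (S : Setup R p ζ) :
    IsUnit (eta0 p ζ) := by
  unfold eta0
  refine Finset.prod_induction _ IsUnit (fun _ _ => IsUnit.mul) isUnit_one ?_
  intro b hb
  exact (isUnit_geo S hb).pow _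

/-! ### congruences modulo `(ζ - 1)^2` -/

/-- the derivative of `1 + X + ⋯ + X^(b-1)` at `ζ`. -/
def dgeo {R : Type*} [CommRing R] (ζ : R) (b : ℕ) : R :=
  ∑ i ∈ Finset.range b, (i : R) * ζ ^ (i - 1)

section congr

variable {R : Type*} [CommRing R] (ζ : R)

theorem logDer_pow_congr (b : ℕ) : (ζ - 1) ^ 2 ∣ ζ ^ b - (1 + b * (ζ - 1)) := by
  induction b with
  | zero => simp
  | succ b ih =>
    obtain ⟨x, hx⟩ := ih
    refine ⟨ζ * x + b, ?_⟩
    push_cast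
    linear_combination ζ * hx

theorem logDer_geo_congr (b : ℕ) :
    (ζ - 1) ^ 2 ∣ 2 * geo ζ b - (2 * b + b * (b - 1) * (ζ - 1)) := by
  induction b with
  | zero => simp [geo]
  | succ b ih =>
    obtain ⟨x, hx⟩ := ih
    obtain ⟨y, hy⟩ := logDer_pow_congr ζ b
    refine ⟨x + 2 * y, ?_⟩
    have : geo ζ (b + 1) = geo ζ b + ζ ^ b := Finset.sum_range_succ _ _
    rw [this]
    push_cast
    linear_combination hx + 2 * hy

theorem logDer_term_congr (b : ℕ) :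
    (ζ - 1) ^ 2 ∣ (b : R) * ζ ^ (b - 1) - (b + b * (b - 1) * (ζ - 1)) := by
  cases b with
  | zero => simp
  | succ b =>
    obtain ⟨y, hy⟩ := logDer_pow_congr ζ b
    refine ⟨(b + 1) * y, ?_⟩
    rw [Nat.add_sub_cancel]
    push_cast
    linear_combination ((b : R) + 1) * hy

theorem logDer_dgeo_congr (b : ℕ) :
    (ζ - 1) ^ 2 ∣ 6 * dgeo ζ b - (3 * b * (b - 1) + 2 * b * (b - 1) * (b - 2) * (ζ - 1)) := by
  induction b with
  | zero => simp [dgeo]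
  | succ b ih =>
    obtain ⟨x, hx⟩ := ih
    obtain ⟨y, hy⟩ := logDer_term_congr ζ b
    refine ⟨x + 6 * y, ?_⟩
    have : dgeo ζ (b + 1) = dgeo ζ b + (b : R) * ζ ^ (b - 1) := Finset.sum_range_succ _ _
    rw [this]
    push_cast
    linear_combination hx + 6 * hy

theorem logDer_key (b : ℕ) :
    (ζ - 1) ^ 2 ∣ 2 * (12 * dgeo ζ b
      - geo ζ b * (6 * ((b : R) - 1) + ((b : R) ^ 2 - 6 * b + 5) * (ζ - 1))) := by
  obtain ⟨x, hx⟩ := logDer_geo_congr ζ b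
  obtain ⟨y, hy⟩ := logDer_dgeo_congr ζ b
  refine ⟨4 * y - x * (6 * ((b : R) - 1) + ((b : R) ^ 2 - 6 * b + 5) * (ζ - 1))
    - b * (b - 1) * ((b : R) ^ 2 - 6 * b + 5), ?_⟩
  linear_combination 4 * hy - (6 * ((b : R) - 1) + ((b : R) ^ 2 - 6 * b + 5) * (ζ - 1)) * hx

theorem logDer_aeval_geo (b : ℕ) :
    aeval ζ (∑ i ∈ Finset.range b, (X : ℤ[X]) ^ i) = geo ζ b := by
  simp [geo, map_sum]

theorem logDer_aeval_dgeo (b : ℕ) :
    aeval ζ (derivative (∑ i ∈ Finset.range b, (X : ℤ[X]) ^ i)) = dgeo ζ b := by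
  simp [dgeo, map_sum, derivative_X_pow]

end congr

theorem exists_LD_eta0 {R : Type*} [CommRing R] [IsDomain R] {p : ℕ} {ζ : R} (S : Setup R p ζ)
    (hp5 : 5 ≤ p) : ∃ W : R, LD p ζ (eta0 p ζ) W ∧ (ζ - 1) ^ 2 ∣ 12 * W + (ζ - 1) := by
  set w : ℕ → R := fun b => dgeo ζ b * Ring.inverse (geo ζ b) with hw
  have hinv : ∀ b ∈ Finset.Ico 1 p, geo ζ b * Ring.inverse (geo ζ b) = 1 := fun b hb =>
    Ring.mul_inverse_cancel _ (isUnit_geo S hb)
  have hLD : ∀ b ∈ Finset.Ico 1 p, LD p ζ (geo ζ b) (w b) := by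
    intro b hb
    refine ⟨∑ i ∈ Finset.range b, (X : ℤ[X]) ^ i, logDer_aeval_geo ζ b, ?_⟩
    rw [logDer_aeval_dgeo]
    have : dgeo ζ b - w b * geo ζ b = 0 := by
      simp only [hw]
      linear_combination (- dgeo ζ b) * hinv b hb
    rw [this]
    exact dvd_zero _
  refine ⟨_, LD.prod (Finset.Ico 1 p) (fun b => b ^ (p - 3)) hLD, ?_⟩
  -- the prime `ζ - 1` does not divide `2`
  have h2 : ¬ (ζ - 1) ∣ (2 : R) := by
    intro h
    have h' : (ζ - 1) ∣ ((2 : ℤ) : R) := by simpa using h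
    rw [S.lam_dvd_int] at h'
    have := Int.le_of_dvd (by norm_num) h'
    omega
  apply S.prime_lam.pow_dvd_of_dvd_mul_left 2 h2
  have hμp : (ζ - 1) ^ 2 ∣ (p : R) :=
    (pow_dvd_pow _ (by omega : 2 ≤ p - 2)).trans S.lam_pow_sub_two_dvd_p
  set E : ℕ → R := fun b => 6 * ((b : R) - 1) + ((b : R) ^ 2 - 6 * b + 5) * (ζ - 1) with hE
  -- step 1
  have hstep1 : (ζ - 1) ^ 2 ∣ ∑ b ∈ Finset.Ico 1 p,
      (((b ^ (p - 3) : ℕ) : R)) * (2 * (12 * w b - E b)) := by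
    refine Finset.dvd_sum fun b hb => Dvd.dvd.mul_left ?_ _
    have h3 : 2 * (12 * w b - E b)
        = Ring.inverse (geo ζ b) * (2 * (12 * dgeo ζ b - geo ζ b * E b)) := by
      simp only [hw]
      linear_combination (2 * E b) * hinv b hb
    rw [h3]
    exact Dvd.dvd.mul_left (logDer_key ζ b) _
  -- step 2
  obtain ⟨q, rfl⟩ : ∃ q, p = q + 3 := ⟨p - 3, by omega⟩
  have hT0 : ((q + 3 : ℕ) : R) ∣ ∑ b ∈ Finset.Ico 1 (q + 3), (b : R) ^ q := by
    have := logDer_dvd_sum_pow S.prime_p (k := q) (by omega) (by omega)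
    have := (Nat.cast_dvd_cast (α := R) this)
    simpa using this
  have hT1 : ((q + 3 : ℕ) : R) ∣ ∑ b ∈ Finset.Ico 1 (q + 3), (b : R) ^ (q + 1) := by
    have := logDer_dvd_sum_pow S.prime_p (k := q + 1) (by omega) (by omega)
    have := (Nat.cast_dvd_cast (α := R) this)
    simpa using this
  have hT2 : ((q + 3 : ℕ) : R) ∣ (∑ b ∈ Finset.Ico 1 (q + 3), (b : R) ^ (q + 2)) + 1 := by
    have := logDer_dvd_sum_pow_pred S.prime_p
    have := (Nat.cast_dvd_cast (α := R) this)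
    simpa using this
  have hstep2 : (∑ b ∈ Finset.Ico 1 (q + 3), (((b ^ (q + 3 - 3) : ℕ) : R)) * E b) + (ζ - 1)
      = 6 * ((∑ b ∈ Finset.Ico 1 (q + 3), (b : R) ^ (q + 1))
          - ∑ b ∈ Finset.Ico 1 (q + 3), (b : R) ^ q)
        + (((∑ b ∈ Finset.Ico 1 (q + 3), (b : R) ^ (q + 2)) + 1)
          - 6 * (∑ b ∈ Finset.Ico 1 (q + 3), (b : R) ^ (q + 1))
          + 5 * ∑ b ∈ Finset.Ico 1 (q + 3), (b : R) ^ q) * (ζ - 1) := by
    have hterm : ∀ b : ℕ, (((b ^ (q + 3 - 3) : ℕ) : R)) * E b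
        = 6 * ((b : R) ^ (q + 1) - (b : R) ^ q)
          + ((b : R) ^ (q + 2) - 6 * (b : R) ^ (q + 1) + 5 * (b : R) ^ q) * (ζ - 1) := by
      intro b
      simp only [hE, Nat.add_sub_cancel]
      push_cast
      ring
    rw [Finset.sum_congr rfl (fun b _ => hterm b)]
    simp only [Finset.sum_add_distrib, Finset.sum_sub_distrib, ← Finset.mul_sum, ← Finset.sum_mul]
    ring
  have hstep3 : (ζ - 1) ^ 2 ∣
      (∑ b ∈ Finset.Ico 1 (q + 3), (((b ^ (q + 3 - 3) : ℕ) : R)) * E b) + (ζ - 1) := by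
    rw [hstep2]
    refine hμp.trans ?_
    exact dvd_add (Dvd.dvd.mul_left (dvd_sub hT1 hT0) _)
      (Dvd.dvd.mul_right (dvd_add (dvd_sub hT2 (Dvd.dvd.mul_left hT1 _))
        (Dvd.dvd.mul_left hT0 _)) _)
  have hfin : 2 * (12 * (∑ b ∈ Finset.Ico 1 (q + 3), (((b ^ (q + 3 - 3) : ℕ) : R)) * w b)
        + (ζ - 1))
      = (∑ b ∈ Finset.Ico 1 (q + 3), (((b ^ (q + 3 - 3) : ℕ) : R)) * (2 * (12 * w b - E b)))
        + 2 * ((∑ b ∈ Finset.Ico 1 (q + 3), (((b ^ (q + 3 - 3) : ℕ) : R)) * E b) + (ζ - 1)) := by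
    simp only [mul_sub, Finset.sum_sub_distrib, Finset.mul_sum]
    have : ∀ b : ℕ, (2 : R) * (12 * ((((b ^ (q + 3 - 3) : ℕ) : R)) * w b))
        = (((b ^ (q + 3 - 3) : ℕ) : R)) * (2 * (12 * w b)) := fun b => by ring
    simp only [mul_add, Finset.mul_sum, this]
    have h' : ∀ b : ℕ, (2 : R) * ((((b ^ (q + 3 - 3) : ℕ) : R)) * E b)
        = (((b ^ (q + 3 - 3) : ℕ) : R)) * (2 * E b) := fun b => by ring
    simp only [h']
    ring
  rw [hfin]
  exact dvd_add hstep1 (Dvd.dvd.mul_left hstep3 _)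

end Fermat.Agent.S14
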