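import Fermat.Agent.S14.U.Defs

/-!
# S14, block (U): the operator induced by `σ` on `E / torsion`
-/

set_option autoImplicit false

namespace Fermat.Agent.S14

open NumberField NumberField.Units

variable {K : Type*} [Field K] [NumberField K]

theorem sigU_mem_torsion (σ : K ≃ₐ[ℚ] K) {u : (𝓞 K)ˣ}
    (hu : u ∈ torsion K) : sigU σ u ∈ torsion K := by
  rw [torsion, CommGroup.mem_torsion] at hu ⊢
  exact MonoidHom.isOfFinOrder (sigU σ) hu

/-- the action of `σ` on `E / torsion` -/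
noncomputable def unitsT (σ : K ≃ₐ[ℚ] K) : UMod K →ₗ[ℤ] UMod K :=
  AddMonoidHom.toIntLinearMap
    (show UMod K →+ UMod K from
      MonoidHom.toAdditive (QuotientGroup.map (torsion K) (torsion K) (sigU σ)
        (fun _ hu => sigU_mem_torsion σ hu)))

theorem unitsT_umk (σ : K ≃ₐ[ℚ] K) (u : (𝓞 K)ˣ) :
    unitsT σ (umk u) = umk (sigU σ u) := rfl

theorem sigO_mul (σ τ : K ≃ₐ[ℚ] K) (x : 𝓞 K) : sigO (σ * τ) x = sigO σ (sigO τ x) := rfl

theorem sigO_one (x : 𝓞 K) : sigO (1 : K ≃ₐ[ℚ] K) x = x := rfl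

theorem coe_sigO (σ : K ≃ₐ[ℚ] K) (x : 𝓞 K) : ((sigO σ x : 𝓞 K) : K) = σ (x : K) := rfl

theorem sigU_mul (σ τ : K ≃ₐ[ℚ] K) (u : (𝓞 K)ˣ) : sigU (σ * τ) u = sigU σ (sigU τ u) := rfl

theorem sigU_one (u : (𝓞 K)ˣ) : sigU (1 : K ≃ₐ[ℚ] K) u = u := rfl

theorem unitsT_pow_umk (σ : K ≃ₐ[ℚ] K) (i : ℕ) (u : (𝓞 K)ˣ) :
    (unitsT σ ^ i) (umk u) = umk (sigU (σ ^ i) u) := by
  induction i with
  | zero => simp [sigU_one]
  | succ i ih =>
    rw [pow_succ', Module.End.mul_apply, ih, unitsT_umk, pow_succ', sigU_mul]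

theorem umk_eq_zero_iff (u : (𝓞 K)ˣ) :
    umk u = 0 ↔ ∀ w : InfinitePlace K, w (u : K) = 1 := by
  rw [umk_eq_zero_iff_mem, mem_torsion]

end Fermat.Agent.S14
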